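import Mathlib

/-!
# An unramified morphism between smooth varieties of the same dimension is étale
-/

set_option autoImplicit false

noncomputable section

universe u

open CategoryTheory CategoryTheory.Limits AlgebraicGeometry TensorProduct

namespace FermatAgent.AV

/-- An unramified map of standard smooth algebras of the same relative dimension is étale. -/
theorem etale_of_formallyUnramified_of_standardSmooth (g : ℕ) (R S T : Type u) [CommRing R]
    [CommRing S] [CommRing T] [IsNoetherianRing R] [Algebra R S] [Algebra R T] [Algebra S T]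
    [IsScalarTower R S T] [Algebra.IsStandardSmoothOfRelativeDimension g R S]
    [Algebra.IsStandardSmoothOfRelativeDimension g R T] [Algebra.FormallyUnramified S T] :
    Algebra.Etale S T := by
  have : Algebra.IsStandardSmooth R S :=
    Algebra.IsStandardSmoothOfRelativeDimension.isStandardSmooth g
  have : Algebra.IsStandardSmooth R T :=
    Algebra.IsStandardSmoothOfRelativeDimension.isStandardSmooth g
  have : Algebra.FiniteType R S := inferInstance
  have : IsNoetherianRing S := Algebra.FiniteType.isNoetherianRing R S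
  have : Algebra.FiniteType S T := Algebra.FiniteType.of_restrictScalars_finiteType R S T
  have : Algebra.FinitePresentation S T := Algebra.FinitePresentation.of_finiteType.mp inferInstance
  cases subsingleton_or_nontrivial T with
  | inl hsub =>
    have : Algebra.FormallySmooth S T := ⟨inferInstance, inferInstance⟩
    exact ⟨Algebra.FormallyEtale.of_formallyUnramified_and_formallySmooth, inferInstance⟩
  | inr hnt =>
    have : Nontrivial S := RingHom.domain_nontrivial (algebraMap S T)
    set μ := KaehlerDifferential.mapBaseChange R S T with hμ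
    have hsurj : Function.Surjective μ := fun x =>
      ((KaehlerDifferential.exact_mapBaseChange_map R S T) x).mp (Subsingleton.elim _ _)
    have hinj : Function.Injective μ := by
      let bS := Module.Free.chooseBasis S Ω[S⁄R]
      let bT := Module.Free.chooseBasis T Ω[T⁄R]
      have hS : Cardinal.mk (Module.Free.ChooseBasisIndex S Ω[S⁄R]) = g := by
        rw [bS.mk_eq_rank'']
        exact Algebra.IsStandardSmoothOfRelativeDimension.rank_kaehlerDifferential g
      have hT : Cardinal.mk (Module.Free.ChooseBasisIndex T Ω[T⁄R]) = g := by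
        rw [bT.mk_eq_rank'']
        exact Algebra.IsStandardSmoothOfRelativeDimension.rank_kaehlerDifferential g
      obtain ⟨σ⟩ := Cardinal.eq.mp (hS.trans hT.symm)
      let e : T ⊗[S] Ω[S⁄R] ≃ₗ[T] Ω[T⁄R] := (bS.baseChange T).equiv bT σ
      have : Module.Finite T Ω[T⁄R] := inferInstance
      have := OrzechProperty.injective_of_surjective_endomorphism (μ.comp e.symm.toLinearMap)
        (hsurj.comp e.symm.surjective)
      exact fun x y hxy => e.injective (this (by simpa using hxy))
    have : Algebra.FormallySmooth S T := by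
      refine ⟨inferInstance, ⟨fun a b => ?_⟩⟩
      have h0 : ∀ z, ∃ w, Algebra.H1Cotangent.map R S T T w = z := fun z => by
        refine ((Algebra.H1Cotangent.exact_map_δ R S T) z).mp (hinj ?_)
        rw [map_zero]
        exact (Algebra.H1Cotangent.exact_δ_mapBaseChange R S T).apply_apply_eq_zero z
      obtain ⟨w, rfl⟩ := h0 a
      obtain ⟨w', rfl⟩ := h0 b
      rw [Subsingleton.elim w w']
    exact ⟨Algebra.FormallyEtale.of_formallyUnramified_and_formallySmooth, inferInstance⟩

lemma opens_eq_top_of_field {K : Type u} [Field K] (W : (Spec (CommRingCat.of K)).Opens)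
    (x : Spec (CommRingCat.of K)) (hx : x ∈ W) : W = ⊤ :=
  top_le_iff.mp fun y _ => (Subsingleton.elim x y) ▸ hx

/-- An unramified endomorphism of a smooth variety over a field is étale. -/
theorem etale_of_formallyUnramified {K : Type u} [Field K] {X Y : Scheme.{u}}
    (fX : X ⟶ Spec (CommRingCat.of K)) (fY : Y ⟶ Spec (CommRingCat.of K)) (g : ℕ)
    [SmoothOfRelativeDimension g fX] [SmoothOfRelativeDimension g fY]
    (φ : X ⟶ Y) (hφ : φ ≫ fY = fX) [FormallyUnramified φ] : Etale φ := by
  have hsrc : RingHom.StableUnderCompositionWithLocalizationAwaySource RingHom.Etale :=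
    (RingHom.Etale.stableUnderComposition.stableUnderCompositionWithLocalizationAway
      fun {R} S _ _ _ r _ =>
        RingHom.etale_algebraMap.mpr (Algebra.Etale.of_isLocalizationAway r)).left
  rw [HasRingHomProperty.iff_exists_appLE (P := @Etale) hsrc]
  intro x
  obtain ⟨W, hW, U, hU, hxU, eU, hsU⟩ :=
    SmoothOfRelativeDimension.exists_isStandardSmoothOfRelativeDimension (n := g) (f := fY) (φ x)
  obtain ⟨W', hW', V₀, hV₀, hxV₀, eV₀, hsV₀⟩ :=
    SmoothOfRelativeDimension.exists_isStandardSmoothOfRelativeDimension (n := g) (f := fX) x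
  obtain rfl := opens_eq_top_of_field W _ (eU hxU)
  obtain rfl := opens_eq_top_of_field W' _ (eV₀ hxV₀)
  -- shrink `V₀` into the preimage of `U` by a basic open
  obtain ⟨r, hrle, hxr⟩ := hV₀.exists_basicOpen_le (V := φ ⁻¹ᵁ U) ⟨x, hxU⟩ hxV₀
  set V := X.basicOpen r with hV
  have hVa : IsAffineOpen V := hV₀.basicOpen r
  have eV : V ≤ fX ⁻¹ᵁ ⊤ := (X.basicOpen_le r).trans eV₀
  have hsV : RingHom.IsStandardSmoothOfRelativeDimension g (fX.appLE ⊤ V eV).hom := by
    rw [← fX.appLE_map (e := eV₀) (homOfLE (X.basicOpen_le r)).op, CommRingCat.hom_comp]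
    have : IsLocalization.Away r Γ(X, V) := hV₀.isLocalization_basicOpen r
    exact (RingHom.isStandardSmoothOfRelativeDimension_stableUnderCompositionWithLocalizationAway
      g).right _ r _ hsV₀
  refine ⟨⟨U, hU⟩, ⟨V, hVa⟩, hxr, hrle, ?_⟩
  have hun : (φ.appLE U V hrle).hom.FormallyUnramified :=
    φ.formallyUnramified_appLE hU hVa hrle
  have hcomp : fY.appLE ⊤ U eU ≫ φ.appLE U V hrle = fX.appLE ⊤ V eV := by
    rw [Scheme.Hom.appLE_comp_appLE]
    subst hφ
    rfl
  have : IsNoetherianRing Γ(Spec (CommRingCat.of K), ⊤) :=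
    isNoetherianRing_of_ringEquiv K
      (Scheme.ΓSpecIso (CommRingCat.of K)).commRingCatIsoToRingEquiv.symm
  algebraize [(fY.appLE ⊤ U eU).hom, (fX.appLE ⊤ V eV).hom, (φ.appLE U V hrle).hom]
  have : IsScalarTower Γ(Spec (CommRingCat.of K), ⊤) Γ(Y, U) Γ(X, V) :=
    IsScalarTower.of_algebraMap_eq' (congrArg CommRingCat.Hom.hom hcomp).symm
  have : Algebra.IsStandardSmoothOfRelativeDimension g Γ(Spec (CommRingCat.of K), ⊤) Γ(Y, U) := hsU
  have : Algebra.IsStandardSmoothOfRelativeDimension g Γ(Spec (CommRingCat.of K), ⊤) Γ(X, V) := hsV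
  have : Algebra.FormallyUnramified Γ(Y, U) Γ(X, V) := hun
  exact etale_of_formallyUnramified_of_standardSmooth g Γ(Spec (CommRingCat.of K), ⊤)
    Γ(Y, U) Γ(X, V)

end FermatAgent.AV
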