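import Mathlib
import Fermat.Prelude.Def_GoodReductionJacobian_RelativeGroupLawKernel

/-!
# Multiplication by an integer invertible in the base field is unramified

Two points of a group scheme over a square-zero thickening which agree modulo the ideal differ by
an infinitesimal point; for those the group law is addition of coordinate homomorphisms, as one
sees over the ring of congruent triples.
-/

set_option autoImplicit false

noncomputable section

universe u

open CategoryTheory CategoryTheory.Limits AlgebraicGeometry NeronModelInfra GoodReductionJacobian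

namespace FermatAgent.AV

variable {K : Type u} [Field K] {A : Scheme.{u}} {f : A ⟶ Spec (CommRingCat.of K)}
  (L : RelativeGroupLaw K f)

/-- The origin. -/
abbrev origin : Spec (CommRingCat.of K) ⟶ A := (L.one (𝟙 (Spec (CommRingCat.of K)))).1

lemma one_eq_comp_origin {T : Scheme.{u}} (t : T ⟶ Spec (CommRingCat.of K)) :
    (L.one t).1 = t ≫ origin L :=
  (congrArg Subtype.val (L.one_natural (𝟙 _) t t (Category.comp_id t))).symm

lemma nsmul_mul_of_comm (hc : L.IsCommutative) {T : Scheme.{u}}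
    (t : T ⟶ Spec (CommRingCat.of K)) (n : ℕ) (x y : SchemeHomOver t f) :
    L.nsmul t n (L.mul t x y) = L.mul t (L.nsmul t n x) (L.nsmul t n y) := by
  induction n with
  | zero => exact (L.one_mul t _).symm
  | succ n ih =>
    rw [RelativeGroupLaw.nsmul_succ, ih, RelativeGroupLaw.nsmul_succ, RelativeGroupLaw.nsmul_succ,
      L.mul_assoc, L.mul_assoc, ← L.mul_assoc t (L.nsmul t n y) x y, hc t (L.nsmul t n y) x,
      L.mul_assoc t x (L.nsmul t n y) y]

lemma eq_of_mul_inv_eq_one {T : Scheme.{u}} (t : T ⟶ Spec (CommRingCat.of K))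
    (x y : SchemeHomOver t f) (h : L.mul t x (L.inv t y) = L.one t) : x = y := by
  have := congrArg (fun z => L.mul t z y) h
  simpa only [L.mul_assoc, L.inv_mul_cancel, L.mul_one, L.one_mul] using this

lemma comp_schemeNsmul {T : Scheme.{u}} (t : T ⟶ Spec (CommRingCat.of K)) (n : ℕ)
    (x : SchemeHomOver t f) : x.1 ≫ L.schemeNsmul n = (L.nsmul t n x).1 := by
  have h := congrArg Subtype.val
    (L.nsmul_natural f t x.1 x.2 n (RelativeGroupLaw.idPoint : SchemeHomOver f f))
  have h2 : schemeHomOverComp x.1 x.2 (RelativeGroupLaw.idPoint : SchemeHomOver f f) = x :=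
    Subtype.ext (Category.comp_id x.1)
  rw [h2] at h
  exact h

/-- Ring elements congruent in triples. -/
def triples {R S : Type u} [CommRing R] [CommRing S] (φ : R →+* S) : Subring (R × R × R) where
  carrier := {p | φ p.1 = φ p.2.2 ∧ φ p.2.1 = φ p.2.2}
  mul_mem' := fun {p q} hp hq => by
    constructor
    · show φ (p.1 * q.1) = φ (p.2.2 * q.2.2)
      rw [map_mul, map_mul, hp.1, hq.1]
    · show φ (p.2.1 * q.2.1) = φ (p.2.2 * q.2.2)
      rw [map_mul, map_mul, hp.2, hq.2]
  one_mem' := ⟨rfl, rfl⟩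
  add_mem' := fun {p q} hp hq => by
    constructor
    · show φ (p.1 + q.1) = φ (p.2.2 + q.2.2)
      rw [map_add, map_add, hp.1, hq.1]
    · show φ (p.2.1 + q.2.1) = φ (p.2.2 + q.2.2)
      rw [map_add, map_add, hp.2, hq.2]
  zero_mem' := ⟨rfl, rfl⟩
  neg_mem' := fun {p} hp => by
    constructor
    · show φ (-p.1) = φ (-p.2.2)
      rw [map_neg, map_neg, hp.1]
    · show φ (-p.2.1) = φ (-p.2.2)
      rw [map_neg, map_neg, hp.2]

/-- Congruent homomorphisms give a homomorphism into the congruent triples. -/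
def toTriples {R S P : Type u} [CommRing R] [CommRing S] [CommRing P] (φ : R →+* S)
    (a b c : P →+* R) (hac : φ.comp a = φ.comp c) (hbc : φ.comp b = φ.comp c) :
    P →+* triples φ :=
  RingHom.codRestrict (a.prod (b.prod c)) _ fun x =>
    ⟨RingHom.congr_fun hac x, RingHom.congr_fun hbc x⟩

/-- The first projection of the triples. -/
def tFst {R S : Type u} [CommRing R] [CommRing S] (φ : R →+* S) : triples φ →+* R :=
  (RingHom.fst R (R × R)).comp (triples φ).subtype

/-- The second projection of the triples. -/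
def tSnd {R S : Type u} [CommRing R] [CommRing S] (φ : R →+* S) : triples φ →+* R :=
  (RingHom.fst R R).comp ((RingHom.snd R (R × R)).comp (triples φ).subtype)

/-- The third projection of the triples. -/
def tThd {R S : Type u} [CommRing R] [CommRing S] (φ : R →+* S) : triples φ →+* R :=
  (RingHom.snd R R).comp ((RingHom.snd R (R × R)).comp (triples φ).subtype)

/-- `(a, b, c) ↦ a + b - c` on congruent triples, for a square-zero kernel. -/
def tSum {R S : Type u} [CommRing R] [CommRing S] (φ : R →+* S)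
    (hφ : RingHom.ker φ ^ 2 = ⊥) : triples φ →+* R where
  toFun p := p.1.1 + p.1.2.1 - p.1.2.2
  map_one' := by simp
  map_zero' := by simp
  map_add' p q := by
    simp only [AddMemClass.coe_add, Prod.fst_add, Prod.snd_add]
    ring
  map_mul' p q := by
    have h : ∀ x y : R, φ x = 0 → φ y = 0 → x * y = 0 := fun x y hx hy => by
      have : x * y ∈ RingHom.ker φ ^ 2 := by
        rw [pow_two]
        exact Ideal.mul_mem_mul hx hy
      rwa [hφ, Ideal.mem_bot] at this
    have ha : φ (p.1.1 - p.1.2.2) = 0 := by rw [map_sub, p.2.1, sub_self]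
    have hb : φ (p.1.2.1 - p.1.2.2) = 0 := by rw [map_sub, p.2.2, sub_self]
    have ha' : φ (q.1.1 - q.1.2.2) = 0 := by rw [map_sub, q.2.1, sub_self]
    have hb' : φ (q.1.2.1 - q.1.2.2) = 0 := by rw [map_sub, q.2.2, sub_self]
    simp only [Subring.coe_mul, Prod.fst_mul, Prod.snd_mul]
    linear_combination -(h _ _ ha hb') - (h _ _ hb ha')

lemma exists_specMap_fromSpec {U : A.Opens} (hU : IsAffineOpen U) {R : CommRingCat.{u}}
    (g : Spec R ⟶ A) (hg : ∀ p, g p ∈ U) : ∃ h : Γ(A, U) ⟶ R, Spec.map h ≫ hU.fromSpec = g := by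
  have hrange : Set.range g ⊆ Set.range hU.fromSpec := by
    rw [hU.range_fromSpec]
    rintro _ ⟨p, rfl⟩
    exact hg p
  exact ⟨Spec.preimage (IsOpenImmersion.lift hU.fromSpec g hrange),
    by rw [Spec.map_preimage, IsOpenImmersion.lift_fac]⟩

lemma specMap_fromSpec_inj {U : A.Opens} (hU : IsAffineOpen U) {R : CommRingCat.{u}}
    {h h' : Γ(A, U) ⟶ R} (e : Spec.map h ≫ hU.fromSpec = Spec.map h' ≫ hU.fromSpec) : h = h' := by
  rw [cancel_mono, Spec.map_inj] at e
  exact e

/-! ### Infinitesimal points -/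

/-- A surjection whose kernel has square-zero elements is surjective on spectra. -/
private lemma surjective_specMap_of_sq_zero {R S : CommRingCat.{u}} (φ : R ⟶ S)
    (hφ : Function.Surjective φ.hom) (h : ∀ a, φ.hom a = 0 → a ^ 2 = 0) :
    Function.Surjective (Spec.map φ) := by
  intro (p : PrimeSpectrum R)
  obtain ⟨q, hq⟩ : p ∈ Set.range (PrimeSpectrum.comap φ.hom) := by
    rw [range_comap_of_surjective _ _ hφ, PrimeSpectrum.mem_zeroLocus, SetLike.coe_subset_coe]
    intro a ha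
    exact p.isPrime.mem_of_pow_mem 2 (h a ha ▸ p.asIdeal.zero_mem)
  exact ⟨q, hq⟩

/-- In a square-zero kernel every element squares to zero. -/
private lemma sq_eq_zero_of_mem_ker {R S : Type u} [CommRing R] [CommRing S] {φ : R →+* S}
    (hker : RingHom.ker φ ^ 2 = ⊥) {a : R} (ha : φ a = 0) : a ^ 2 = 0 := by
  have : a ^ 2 ∈ RingHom.ker φ ^ 2 := Ideal.pow_mem_pow ha 2
  rwa [hker, Ideal.mem_bot] at this

/-- On congruent triples the kernel of the first projection has square-zero elements. -/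
private lemma sq_eq_zero_of_tFst {R S : Type u} [CommRing R] [CommRing S] {φ : R →+* S}
    (hker : RingHom.ker φ ^ 2 = ⊥) (a : triples φ) (ha : tFst φ a = 0) : a ^ 2 = 0 := by
  have h0 : a.1.1 = 0 := ha
  have h3 : φ a.1.2.2 = 0 := by rw [← a.2.1, h0, map_zero]
  have h2 : φ a.1.2.1 = 0 := by rw [a.2.2, h3]
  refine Subtype.ext (Prod.ext ?_ (Prod.ext (sq_eq_zero_of_mem_ker hker h2)
    (sq_eq_zero_of_mem_ker hker h3)))
  show a.1.1 ^ 2 = 0
  rw [h0, zero_pow two_ne_zero]

variable {R S : CommRingCat.{u}} {φ : R ⟶ S} {t : Spec R ⟶ Spec (CommRingCat.of K)} {U : A.Opens}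
  (hU : IsAffineOpen U)

/-- The coordinates of a point over `t` extend the structure map. -/
private lemma coord_over (y : SchemeHomOver t f) {r : Γ(A, U) ⟶ R}
    (hr : Spec.map r ≫ hU.fromSpec = y.1) :
    Spec.preimage (hU.fromSpec ≫ f) ≫ r = Spec.preimage t := by
  apply Spec.map_injective
  rw [Spec.map_comp, Spec.map_preimage, ← Category.assoc, hr, y.2, Spec.map_preimage]

/-- Congruent points have congruent coordinates. -/
private lemma coord_congr {y z : SchemeHomOver t f} {r r' : Γ(A, U) ⟶ R}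
    (hr : Spec.map r ≫ hU.fromSpec = y.1) (hr' : Spec.map r' ≫ hU.fromSpec = z.1)
    (h : Spec.map φ ≫ y.1 = Spec.map φ ≫ z.1) : φ.hom.comp r.hom = φ.hom.comp r'.hom := by
  refine congrArg CommRingCat.Hom.hom (specMap_fromSpec_inj hU (h := r ≫ φ) (h' := r' ≫ φ) ?_)
  rw [Spec.map_comp, Spec.map_comp, Category.assoc, Category.assoc, hr, hr', h]

/-- On points congruent to the origin the group law adds coordinates. -/
private lemma exists_mul_coord (hker : RingHom.ker φ.hom ^ 2 = ⊥) {r₁ ry rz : Γ(A, U) ⟶ R}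
    {y z : SchemeHomOver t f} (hr₁ : Spec.map r₁ ≫ hU.fromSpec = (L.one t).1)
    (hry : Spec.map ry ≫ hU.fromSpec = y.1) (hrz : Spec.map rz ≫ hU.fromSpec = z.1)
    (hy : Spec.map φ ≫ y.1 = Spec.map φ ≫ (L.one t).1)
    (hz : Spec.map φ ≫ z.1 = Spec.map φ ≫ (L.one t).1) :
    ∃ r : Γ(A, U) ⟶ R, Spec.map r ≫ hU.fromSpec = (L.mul t y z).1 ∧
      ∀ a, r.hom a = ry.hom a + rz.hom a - r₁.hom a := by
  let R₃ : CommRingCat.{u} := CommRingCat.of (triples φ.hom)
  set κ := Spec.preimage t with hκ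
  let p₁ : R₃ ⟶ R := CommRingCat.ofHom (tFst φ.hom)
  let p₂ : R₃ ⟶ R := CommRingCat.ofHom (tSnd φ.hom)
  let p₃ : R₃ ⟶ R := CommRingCat.ofHom (tThd φ.hom)
  let σ : R₃ ⟶ R := CommRingCat.ofHom (tSum φ.hom hker)
  let κ₃ : CommRingCat.of K ⟶ R₃ :=
    CommRingCat.ofHom (toTriples φ.hom κ.hom κ.hom κ.hom rfl rfl)
  let hu : Γ(A, U) ⟶ R₃ :=
    CommRingCat.ofHom (toTriples φ.hom ry.hom r₁.hom r₁.hom (coord_congr hU hry hr₁ hy) rfl)
  let hv : Γ(A, U) ⟶ R₃ :=
    CommRingCat.ofHom (toTriples φ.hom r₁.hom rz.hom r₁.hom rfl (coord_congr hU hrz hr₁ hz))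
  have oy := ConcreteCategory.congr_hom (coord_over hU y hry)
  have oz := ConcreteCategory.congr_hom (coord_over hU z hrz)
  have o₁ := ConcreteCategory.congr_hom (coord_over hU (L.one t) hr₁)
  have hstr : ∀ h : Γ(A, U) ⟶ R₃, Spec.preimage (hU.fromSpec ≫ f) ≫ h = κ₃ →
      (Spec.map h ≫ hU.fromSpec) ≫ f = Spec.map κ₃ := fun h hh => by
    rw [Category.assoc, ← Spec.map_preimage (hU.fromSpec ≫ f), ← Spec.map_comp, hh]
  let u : SchemeHomOver (Spec.map κ₃) f := ⟨Spec.map hu ≫ hU.fromSpec, hstr hu (by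
    refine CommRingCat.hom_ext (RingHom.ext fun a => Subtype.ext ?_)
    exact Prod.ext (oy a) (Prod.ext (o₁ a) (o₁ a)))⟩
  let v : SchemeHomOver (Spec.map κ₃) f := ⟨Spec.map hv ≫ hU.fromSpec, hstr hv (by
    refine CommRingCat.hom_ext (RingHom.ext fun a => Subtype.ext ?_)
    exact Prod.ext (o₁ a) (Prod.ext (oz a) (o₁ a)))⟩
  have hp : ∀ q : R₃ ⟶ R, κ₃ ≫ q = κ → Spec.map q ≫ Spec.map κ₃ = t := fun q hq => by
    rw [← Spec.map_comp, hq, hκ, Spec.map_preimage]
  have h₁ : κ₃ ≫ p₁ = κ := CommRingCat.hom_ext (RingHom.ext fun a => rfl)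
  have h₂ : κ₃ ≫ p₂ = κ := CommRingCat.hom_ext (RingHom.ext fun a => rfl)
  have h₃ : κ₃ ≫ p₃ = κ := CommRingCat.hom_ext (RingHom.ext fun a => rfl)
  have h₄ : κ₃ ≫ σ = κ := CommRingCat.hom_ext (RingHom.ext fun a => add_sub_cancel_right _ _)
  have pt : ∀ (q : R₃ ⟶ R) (hq : κ₃ ≫ q = κ) (w : SchemeHomOver (Spec.map κ₃) f)
      (h : Γ(A, U) ⟶ R₃) (r : Γ(A, U) ⟶ R) (w' : SchemeHomOver t f),
      Spec.map h ≫ hU.fromSpec = w.1 → Spec.map r ≫ hU.fromSpec = w'.1 → h ≫ q = r →
      schemeHomOverComp (Spec.map q) (hp q hq) w = w' := by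
    intro q hq w h r w' hh hr he
    refine Subtype.ext ?_
    rw [schemeHomOverComp_coe, ← hh, ← Category.assoc, ← Spec.map_comp, he, hr]
  set w := L.mul (Spec.map κ₃) u v with hw
  have mulp : ∀ (q : R₃ ⟶ R) (hq : κ₃ ≫ q = κ),
      schemeHomOverComp (Spec.map q) (hp q hq) w =
        L.mul t (schemeHomOverComp (Spec.map q) (hp q hq) u)
          (schemeHomOverComp (Spec.map q) (hp q hq) v) := fun q hq =>
    L.mul_natural _ _ _ _ _ _
  have w₁ : schemeHomOverComp (Spec.map p₁) (hp p₁ h₁) w = y := by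
    rw [mulp p₁ h₁, pt p₁ h₁ u hu ry y rfl hry rfl,
      pt p₁ h₁ v hv r₁ (L.one t) rfl hr₁ rfl, L.mul_one]
  have w₂ : schemeHomOverComp (Spec.map p₂) (hp p₂ h₂) w = z := by
    rw [mulp p₂ h₂, pt p₂ h₂ u hu r₁ (L.one t) rfl hr₁ rfl,
      pt p₂ h₂ v hv rz z rfl hrz rfl, L.one_mul]
  have w₃ : schemeHomOverComp (Spec.map p₃) (hp p₃ h₃) w = L.one t := by
    rw [mulp p₃ h₃, pt p₃ h₃ u hu r₁ (L.one t) rfl hr₁ rfl,
      pt p₃ h₃ v hv r₁ (L.one t) rfl hr₁ rfl, L.one_mul]
  have hwU : ∀ p, w.1 p ∈ U := fun p => by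
    obtain ⟨q, rfl⟩ := surjective_specMap_of_sq_zero p₁ (fun a => ⟨⟨(a, a, a), rfl, rfl⟩, rfl⟩)
      (sq_eq_zero_of_tFst hker) p
    rw [← Scheme.Hom.comp_apply, ← schemeHomOverComp_coe _ (hp p₁ h₁) w, w₁, ← hry,
      Scheme.Hom.comp_apply, ← SetLike.mem_coe, ← hU.range_fromSpec]
    exact ⟨_, rfl⟩
  obtain ⟨hw', hhw⟩ := exists_specMap_fromSpec hU w.1 hwU
  have proj : ∀ (q : R₃ ⟶ R) (hq : κ₃ ≫ q = κ) (w' : SchemeHomOver t f) (r : Γ(A, U) ⟶ R),
      schemeHomOverComp (Spec.map q) (hp q hq) w = w' → Spec.map r ≫ hU.fromSpec = w'.1 →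
      hw' ≫ q = r := fun q hq w' r he hr => by
    apply specMap_fromSpec_inj hU
    rw [Spec.map_comp, Category.assoc, hhw, hr, ← he, schemeHomOverComp_coe]
  refine ⟨hw' ≫ σ, ?_, fun a => ?_⟩
  · have hσ : schemeHomOverComp (Spec.map σ) (hp σ h₄) w = L.mul t y z := by
      rw [mulp σ h₄, pt σ h₄ u hu ry y rfl hry (CommRingCat.hom_ext (RingHom.ext fun a =>
          add_sub_cancel_right _ _)),
        pt σ h₄ v hv rz z rfl hrz (CommRingCat.hom_ext (RingHom.ext fun a =>
          add_sub_cancel_left _ _))]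
    rw [← hσ, Spec.map_comp, Category.assoc, hhw, schemeHomOverComp_coe]
  · have e₁ := ConcreteCategory.congr_hom (proj p₁ h₁ y ry w₁ hry) a
    have e₂ := ConcreteCategory.congr_hom (proj p₂ h₂ z rz w₂ hrz) a
    have e₃ := ConcreteCategory.congr_hom (proj p₃ h₃ (L.one t) r₁ w₃ hr₁) a
    show (hw'.hom a : triples φ.hom).1.1 + (hw'.hom a : triples φ.hom).1.2.1 -
      (hw'.hom a : triples φ.hom).1.2.2 = _
    exact congrArg₂ (· - ·) (congrArg₂ (· + ·) e₁ e₂) e₃

/-- Multiples of a point congruent to the origin multiply its coordinates. -/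
private lemma exists_nsmul_coord (hker : RingHom.ker φ.hom ^ 2 = ⊥) {r₁ r : Γ(A, U) ⟶ R}
    {x : SchemeHomOver t f} (hr₁ : Spec.map r₁ ≫ hU.fromSpec = (L.one t).1)
    (hr : Spec.map r ≫ hU.fromSpec = x.1)
    (hrx : Spec.map φ ≫ x.1 = Spec.map φ ≫ (L.one t).1) (m : ℕ) :
    Spec.map φ ≫ (L.nsmul t m x).1 = Spec.map φ ≫ (L.one t).1 ∧
      ∃ rm : Γ(A, U) ⟶ R, Spec.map rm ≫ hU.fromSpec = (L.nsmul t m x).1 ∧
        ∀ a, rm.hom a = r₁.hom a + (m : R) * (r.hom a - r₁.hom a) := by
  induction m with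
  | zero => exact ⟨rfl, r₁, hr₁, fun a => by simp⟩
  | succ m ih =>
    obtain ⟨hm, rm, hrm, hval⟩ := ih
    obtain ⟨r', hr', hval'⟩ := exists_mul_coord L hU hker hr₁ hrm hr hm hrx
    refine ⟨?_, r', hr', fun a => by rw [hval' a, hval a]; push_cast; ring⟩
    have hid : schemeHomOverComp (Spec.map φ) rfl (L.nsmul t (m + 1) x) =
        schemeHomOverComp (Spec.map φ) rfl (L.one t) := by
      rw [L.nsmul_natural t (Spec.map φ ≫ t), L.one_natural t (Spec.map φ ≫ t),
        show schemeHomOverComp (Spec.map φ) rfl x = L.one (Spec.map φ ≫ t) from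
          (Subtype.ext hrx).trans (L.one_natural t (Spec.map φ ≫ t) _ rfl), L.nsmul_unit]
    exact congrArg Subtype.val hid

/-- The difference of two congruent points is congruent to the origin. -/
private lemma specMap_mul_inv {x₁ x₂ : SchemeHomOver t f}
    (h : Spec.map φ ≫ x₁.1 = Spec.map φ ≫ x₂.1) :
    Spec.map φ ≫ (L.mul t x₁ (L.inv t x₂)).1 = Spec.map φ ≫ (L.one t).1 := by
  have hid : schemeHomOverComp (Spec.map φ) rfl (L.mul t x₁ (L.inv t x₂)) =
      schemeHomOverComp (Spec.map φ) rfl (L.one t) := by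
    rw [L.mul_natural t (Spec.map φ ≫ t), L.one_natural t (Spec.map φ ≫ t)]
    have e : schemeHomOverComp (Spec.map φ) (rfl : Spec.map φ ≫ t = _) x₁ =
        schemeHomOverComp (Spec.map φ) (rfl : Spec.map φ ≫ t = _) x₂ := Subtype.ext h
    rw [e, ← L.mul_natural t (Spec.map φ ≫ t), L.mul_inv_cancel,
      L.one_natural t (Spec.map φ ≫ t)]
  exact congrArg Subtype.val hid

/-- Multiplication by an integer invertible in the base field is formally unramified. -/
theorem formallyUnramified_schemeNsmul (hc : L.IsCommutative) (n : ℕ) (hn : (n : K) ≠ 0) :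
    FormallyUnramified (L.schemeNsmul n) := by
  refine FormallyUnramified.of_hom_ext _ fun R S φ hφ hker g₁ g₂ hres hcomp => ?_
  set t := g₁ ≫ f with ht
  have ht2 : g₂ ≫ f = t := by
    have := congrArg (· ≫ f) hcomp
    simpa only [Category.assoc, RelativeGroupLaw.schemeNsmul_over] using this.symm
  let x₁ : SchemeHomOver t f := ⟨g₁, rfl⟩
  let x₂ : SchemeHomOver t f := ⟨g₂, ht2⟩
  set x := L.mul t x₁ (L.inv t x₂) with hx
  have hnx : L.nsmul t n x = L.one t := by
    have h12 : L.nsmul t n x₁ = L.nsmul t n x₂ := Subtype.ext (by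
      rw [← comp_schemeNsmul, ← comp_schemeNsmul]
      exact hcomp)
    rw [hx, nsmul_mul_of_comm L hc, h12, ← nsmul_mul_of_comm L hc, L.mul_inv_cancel,
      L.nsmul_unit]
  have hrx : Spec.map φ ≫ x.1 = Spec.map φ ≫ (L.one t).1 := specMap_mul_inv L hres
  suffices x = L.one t from congrArg Subtype.val (eq_of_mul_inv_eq_one L t x₁ x₂ this)
  obtain ⟨_, ⟨U, hU, rfl⟩, hU0, -⟩ := A.isBasis_affineOpens.exists_subset_of_mem_open
    (Set.mem_univ (origin L (IsLocalRing.closedPoint K))) isOpen_univ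
  -- points congruent to the origin lie in `U`, where the group law adds coordinates
  have hone : ∀ p, (L.one t).1 p ∈ U := fun p => by
    rw [one_eq_comp_origin, Scheme.Hom.comp_apply,
      show t p = IsLocalRing.closedPoint K from Subsingleton.elim _ _]
    exact hU0
  have hxU : ∀ p, x.1 p ∈ U := fun p => by
    obtain ⟨q, rfl⟩ :=
      surjective_specMap_of_sq_zero φ hφ (fun _ => sq_eq_zero_of_mem_ker hker) p
    rw [← Scheme.Hom.comp_apply, hrx, Scheme.Hom.comp_apply]
    exact hone _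
  obtain ⟨r₁, hr₁⟩ := exists_specMap_fromSpec hU (L.one t).1 hone
  obtain ⟨r, hr⟩ := exists_specMap_fromSpec hU x.1 hxU
  obtain ⟨-, rn, hrn, hval⟩ := exists_nsmul_coord L hU hker hr₁ hr hrx n
  have hrn1 : rn = r₁ := specMap_fromSpec_inj hU (by rw [hrn, hr₁, hnx])
  have hunit : IsUnit (n : R) := by
    rw [← map_natCast (Spec.preimage t).hom n]
    exact (IsUnit.mk0 _ hn).map (Spec.preimage t).hom
  have hrr : r = r₁ := by
    refine CommRingCat.hom_ext (RingHom.ext fun a => ?_)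
    have h := hval a
    rw [hrn1, eq_comm, add_eq_left, hunit.mul_right_eq_zero, sub_eq_zero] at h
    exact h
  exact Subtype.ext (by rw [← hr, hrr, hr₁])

end FermatAgent.AV
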