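import Mathlib
import Fermat.Prelude.Def_JacJ1Iface
import Fermat.Agent.AV.Count.Unramified
import Fermat.Agent.AV.Count.Etale

/-!
# Torsion points of a commutative smooth proper connected group scheme

Multiplication by `n`, invertible in the algebraically closed base field, is finite étale, so the
number of `n`-torsion points is its constant rank.
-/

set_option autoImplicit false

noncomputable section

universe u

open CategoryTheory CategoryTheory.Limits AlgebraicGeometry NeronModelInfra GoodReductionJacobian

namespace FermatAgent.AV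

/-- A finite étale scheme over an algebraically closed field has as many points as its rank. -/
theorem natCard_sections {K : Type u} [Field K] [IsAlgClosed K] {Z : Scheme.{u}}
    (π : Z ⟶ Spec (CommRingCat.of K)) [IsFinite π] [Etale π] (s : Spec (CommRingCat.of K)) :
    Nat.card {p : Spec (CommRingCat.of K) ⟶ Z // p ≫ π = 𝟙 _} = π.finrank s := by
  have : IsAffine Z := isAffine_of_isAffineHom π
  set ψ := Spec.preimage (Z.isoSpec.inv ≫ π) with hψ
  have hmap : Spec.map ψ = Z.isoSpec.inv ≫ π := Spec.map_preimage _
  have hfin : ψ.hom.Finite := by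
    rw [← IsFinite.SpecMap_iff, hmap]
    infer_instance
  have het : ψ.hom.Etale := by
    rw [← HasRingHomProperty.Spec_iff (P := @Etale), hmap]
    infer_instance
  algebraize [ψ.hom]
  have : Module.Finite K Γ(Z, ⊤) := hfin
  have : Algebra.Etale K Γ(Z, ⊤) := het
  have : IsArtinianRing Γ(Z, ⊤) := isArtinian_of_tower K inferInstance
  have hclosed : closedPoints Z = Set.univ := by
    refine Set.eq_univ_of_forall fun x => ?_
    have h : IsClosed ({Z.isoSpec.hom x} : Set (Spec Γ(Z, ⊤))) :=
      (PrimeSpectrum.isClosed_singleton_iff_isMaximal (R := Γ(Z, ⊤)) _).mpr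
        (by
          have := (show PrimeSpectrum Γ(Z, ⊤) from Z.isoSpec.hom x).isPrime
          exact IsArtinianRing.isMaximal_of_isPrime _)
    have h' := h.preimage Z.isoSpec.hom.continuous
    have e : Z.isoSpec.hom ⁻¹' {Z.isoSpec.hom x} = {x} := Set.ext fun z =>
      ⟨fun hz => Z.isoSpec.hom.homeomorph.injective hz, fun hz => congrArg _ hz⟩
    rwa [e] at h'
  rw [Nat.card_congr (pointEquivClosedPoint π), hclosed, Nat.card_congr (Equiv.Set.univ _),
    Nat.card_congr Z.isoSpec.hom.homeomorph.toEquiv]
  have hrank : π.finrank s = Module.finrank K Γ(Z, ⊤) := by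
    rw [← Scheme.Hom.finrank_comp_left_of_isIso Z.isoSpec.inv π, ← hmap,
      Scheme.Hom.finrank_SpecMap_eq_finrank hfin (by
        rw [← Flat.SpecMap_iff, hmap]; infer_instance)]
    show (algebraMap K Γ(Z, ⊤)).finrank s = _
    rw [RingHom.finrank_algebraMap, Module.rankAtStalk_eq_finrank_of_free]
    rfl
  rw [hrank]
  have : Finite (PrimeSpectrum Γ(Z, ⊤)) := inferInstance
  have := Fintype.ofFinite (PrimeSpectrum Γ(Z, ⊤))
  rw [(Algebra.FormallyEtale.equivPiOfIsSepClosed K Γ(Z, ⊤)).toLinearEquiv.finrank_eq,
    Module.finrank_fintype_fun_eq_card, ← Nat.card_eq_fintype_card]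
  rfl

/-- An unramified morphism of finite type is quasi-finite. -/
lemma locallyQuasiFinite_of_formallyUnramified {X Y : Scheme.{u}} (φ : X ⟶ Y)
    [FormallyUnramified φ] [LocallyOfFiniteType φ] : LocallyQuasiFinite φ := by
  rw [HasRingHomProperty.iff_appLE (P := @LocallyQuasiFinite)]
  intro U V e
  have h1 := φ.formallyUnramified_appLE U.2 V.2 e
  have h2 := φ.finiteType_appLE U.2 V.2 e
  algebraize [(φ.appLE U.1 V.1 e).hom]
  exact inferInstanceAs (Algebra.QuasiFinite Γ(Y, U.1) Γ(X, V.1))

variable {K : Type u} [Field K] {A : Scheme.{u}} {f : A ⟶ Spec (CommRingCat.of K)}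
  (L : RelativeGroupLaw K f)

/-- The number of rational `n`-torsion points. -/
def torsionCount (n : ℕ) : ℕ :=
  Nat.card {x : SchemeHomOver (𝟙 (Spec (CommRingCat.of K))) f //
    L.IsTorsionPoint (𝟙 (Spec (CommRingCat.of K))) n x}

lemma connectedSpace_of_bundle (hA : AbelianSchemePropertyBundle K f) : ConnectedSpace A := by
  rw [connectedSpace_iff_univ]
  have h := hA.connectedFibres (IsLocalRing.closedPoint K)
  refine (congrArg _root_.IsConnected (Set.eq_univ_of_forall fun x => ?_)).mp h
  exact Subsingleton.elim (α := Spec (CommRingCat.of K)) _ _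

lemma isProper_schemeNsmul (hA : AbelianSchemePropertyBundle K f) (n : ℕ) :
    IsProper (L.schemeNsmul n) := by
  have := hA.proper
  have : IsProper (L.schemeNsmul n ≫ f) := by
    rw [RelativeGroupLaw.schemeNsmul_over]
    infer_instance
  exact IsProper.of_comp _ f

variable (g : ℕ) [SmoothOfRelativeDimension g f]

include g in
lemma etale_schemeNsmul (hc : L.IsCommutative) {n : ℕ} (hn : (n : K) ≠ 0) :
    Etale (L.schemeNsmul n) := by
  have := formallyUnramified_schemeNsmul L hc n hn
  exact etale_of_formallyUnramified f f g _ (L.schemeNsmul_over n)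

include g in
/-- Multiplication by `n` is finite. -/
theorem isFinite_schemeNsmul (hc : L.IsCommutative) (hA : AbelianSchemePropertyBundle K f)
    {n : ℕ} (hn : (n : K) ≠ 0) : IsFinite (L.schemeNsmul n) := by
  have := isProper_schemeNsmul L hA n
  have := etale_schemeNsmul L g hc hn
  have : LocallyQuasiFinite (L.schemeNsmul n) := locallyQuasiFinite_of_formallyUnramified _
  exact IsFinite.of_isProper_of_locallyQuasiFinite _

variable [IsAlgClosed K]

include g in
/-- Every fibre of multiplication by `n` on rational points has as many elements as the rank. -/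
theorem natCard_nsmul_eq (hc : L.IsCommutative) (hA : AbelianSchemePropertyBundle K f)
    {n : ℕ} (hn : (n : K) ≠ 0) (y : SchemeHomOver (𝟙 (Spec (CommRingCat.of K))) f) (a : A) :
    Nat.card {x : SchemeHomOver (𝟙 (Spec (CommRingCat.of K))) f //
        L.nsmul (𝟙 (Spec (CommRingCat.of K))) n x = y} = (L.schemeNsmul n).finrank a := by
  have := isFinite_schemeNsmul L g hc hA hn
  have := etale_schemeNsmul L g hc hn
  have := connectedSpace_of_bundle hA
  have : LocallyOfFinitePresentation (L.schemeNsmul n) := inferInstance
  let e : {x : SchemeHomOver (𝟙 (Spec (CommRingCat.of K))) f //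
        L.nsmul (𝟙 (Spec (CommRingCat.of K))) n x = y} ≃
      {p : Spec (CommRingCat.of K) ⟶ pullback (L.schemeNsmul n) y.1 //
        p ≫ pullback.snd (L.schemeNsmul n) y.1 = 𝟙 _} :=
    { toFun := fun x => ⟨pullback.lift x.1.1 (𝟙 _) (by
          rw [comp_schemeNsmul, x.2, Category.id_comp]), pullback.lift_snd _ _ _⟩
      invFun := fun p => ⟨⟨p.1 ≫ pullback.fst _ _, by
          have hy := y.2
          have h1 : pullback.fst (L.schemeNsmul n) y.1 ≫ L.schemeNsmul n ≫ f =
              pullback.fst (L.schemeNsmul n) y.1 ≫ f :=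
            congrArg (pullback.fst (L.schemeNsmul n) y.1 ≫ ·) (L.schemeNsmul_over n)
          rw [Category.assoc, ← h1, pullback.condition_assoc, hy, Category.comp_id, p.2]⟩,
        Subtype.ext (by
          rw [← comp_schemeNsmul]
          show (p.1 ≫ pullback.fst _ _) ≫ L.schemeNsmul n = y.1
          rw [Category.assoc, pullback.condition, ← Category.assoc, p.2, Category.id_comp])⟩
      left_inv := fun x => Subtype.ext (Subtype.ext (pullback.lift_fst _ _ _))
      right_inv := fun p => Subtype.ext (pullback.hom_ext (pullback.lift_fst _ _ _)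
        ((pullback.lift_snd _ _ _).trans p.2.symm)) }
  let pt : Spec (CommRingCat.of K) := IsLocalRing.closedPoint K
  rw [Nat.card_congr e, natCard_sections _ pt, Scheme.Hom.finrank_pullback_snd]
  exact (L.schemeNsmul n).isLocallyConstant_finrank.apply_eq_of_preconnectedSpace _ _

include g in
/-- The number of torsion points is the rank of multiplication by `n`, at every point. -/
theorem torsionCount_eq_finrank (hc : L.IsCommutative) (hA : AbelianSchemePropertyBundle K f)
    {n : ℕ} (hn : (n : K) ≠ 0) (a : A) :
    torsionCount L n = (L.schemeNsmul n).finrank a :=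
  natCard_nsmul_eq L g hc hA hn (L.one _) a

include g in
lemma torsionCount_pos (hc : L.IsCommutative) (hA : AbelianSchemePropertyBundle K f)
    {n : ℕ} (hn : (n : K) ≠ 0) : 0 < torsionCount L n := by
  have := isFinite_schemeNsmul L g hc hA hn
  have := etale_schemeNsmul L g hc hn
  rw [torsionCount_eq_finrank L g hc hA hn
    (L.schemeNsmul n (origin L (IsLocalRing.closedPoint K)))]
  exact Scheme.Hom.one_le_finrank_map _ _

end FermatAgent.AV
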