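import Mathlib
import Fermat.Agent.AV.Count.Torsion

/-!
# The extension of function fields given by multiplication by `n`

On an integral abelian variety the endomorphism of the function field induced by multiplication
by `n` is finite separable of degree the number of `n`-torsion points.
-/

set_option autoImplicit false

noncomputable section

universe u

open CategoryTheory CategoryTheory.Limits AlgebraicGeometry NeronModelInfra GoodReductionJacobian

namespace FermatAgent.AV

/-- Fraction fields of a finite étale extension of domains. -/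
theorem fractionField_degree (R C F G : Type u) [CommRing R] [IsDomain R] [CommRing C] [IsDomain C]
    [Algebra R C] [Module.Finite R C] [Algebra.Etale R C] [Field F] [Algebra R F]
    [IsFractionRing R F] [Field G] [Algebra C G] [IsFractionRing C G] [Algebra F G] [Algebra R G]
    [IsScalarTower R C G] [IsScalarTower R F G] (p : PrimeSpectrum R) (hp : p.asIdeal = ⊥) :
    Module.Finite F G ∧ Algebra.IsSeparable F G ∧
      Module.finrank F G = Module.rankAtStalk (R := R) C p := by
  have : FaithfulSMul R C := by
    rw [faithfulSMul_iff_algebraMap_injective]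
    intro a b hab
    have hinj : Function.Injective (algebraMap R G) := by
      rw [IsScalarTower.algebraMap_eq R F G]
      exact (algebraMap F G).injective.comp (IsFractionRing.injective R F)
    apply hinj
    rw [IsScalarTower.algebraMap_apply R C G, hab, ← IsScalarTower.algebraMap_apply]
  have : Algebra.IsIntegral R C := Algebra.IsIntegral.of_finite R C
  -- every non-zero element of `C` divides a non-zero element of `R`
  have hdiv : ∀ c : C, c ≠ 0 → ∃ (q : C) (r : R), r ≠ 0 ∧ c * q = algebraMap R C r := by
    intro c hc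
    obtain ⟨r, hr0, q, hq⟩ :=
      (Algebra.IsIntegral.isIntegral (R := R) c).isAlgebraic.exists_nonzero_dvd
        (mem_nonZeroDivisors_of_ne_zero hc)
    exact ⟨q, r, hr0, hq.symm⟩
  have hloc : IsLocalization (Algebra.algebraMapSubmonoid C (nonZeroDivisors R)) G := by
    have hne : ∀ y : Algebra.algebraMapSubmonoid C (nonZeroDivisors R), (y : C) ≠ 0 := by
      rintro ⟨_, r, hr, rfl⟩
      exact (map_ne_zero_iff _ (FaithfulSMul.algebraMap_injective R C)).mpr
        (nonZeroDivisors.ne_zero hr)
    refine ⟨fun y => ?_, fun z => ?_, fun {x y} h => ⟨1, ?_⟩⟩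
    · exact isUnit_iff_ne_zero.mpr
        ((map_ne_zero_iff _ (IsFractionRing.injective C G)).mpr (hne y))
    · obtain ⟨⟨a, s⟩, hs⟩ := IsLocalization.surj (nonZeroDivisors C) z
      obtain ⟨q, r, hr, hq⟩ := hdiv s (nonZeroDivisors.coe_ne_zero s)
      refine ⟨⟨a * q, ⟨algebraMap R C r, r, mem_nonZeroDivisors_of_ne_zero hr, rfl⟩⟩, ?_⟩
      show z * algebraMap C G (algebraMap R C r) = algebraMap C G (a * q)
      rw [← hq, map_mul, map_mul, ← mul_assoc]
      exact congrArg (· * algebraMap C G q) hs
    · rw [IsFractionRing.injective C G h]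
  have : IsLocalizedModule (nonZeroDivisors R) (IsScalarTower.toAlgHom R C G).toLinearMap :=
    isLocalizedModule_iff_isLocalization.mpr hloc
  have hbc : IsBaseChange F (IsScalarTower.toAlgHom R C G).toLinearMap :=
    (isLocalizedModule_iff_isBaseChange (nonZeroDivisors R) F _).mp inferInstance
  have hfin : Module.Finite F G := Module.Finite.equiv hbc.equiv
  refine ⟨hfin, ?_, ?_⟩
  · have : Algebra.FormallyUnramified C G :=
      Algebra.FormallyUnramified.of_isLocalization
        (Algebra.algebraMapSubmonoid C (nonZeroDivisors R))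
    have : Algebra.FormallyUnramified R G := Algebra.FormallyUnramified.comp R C G
    have : Algebra.FormallyUnramified F G := Algebra.FormallyUnramified.of_restrictScalars R F G
    have : Algebra.EssFiniteType F G := inferInstance
    exact Algebra.FormallyUnramified.isSeparable F G
  · let s : PrimeSpectrum F := ⟨⊥, Ideal.isPrime_bot⟩
    have hcomap : PrimeSpectrum.comap (algebraMap R F) s = p := by
      apply PrimeSpectrum.ext
      rw [PrimeSpectrum.comap_asIdeal, hp]
      exact Ideal.comap_bot_of_injective _ (IsFractionRing.injective R F)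
    rw [← hcomap, ← Module.rankAtStalk_isBaseChange hbc s,
      Module.rankAtStalk_eq_finrank_of_free]
    rfl

variable {K : Type u} [Field K] [IsAlgClosed K] {A : Scheme.{u}}
  {f : A ⟶ Spec (CommRingCat.of K)} (L : RelativeGroupLaw K f) (g : ℕ)
  [SmoothOfRelativeDimension g f] [IsIntegral A]

include g in
/-- The endomorphism of the function field induced by multiplication by `n` has degree the number
of `n`-torsion points and is separable. -/
theorem functionField_degree (hc : L.IsCommutative) (hA : AbelianSchemePropertyBundle K f)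
    {n : ℕ} (hn : (n : K) ≠ 0) (φ : A.functionField →+* A.functionField)
    (hφ : Spec.map (CommRingCat.ofHom φ) ≫ A.fromSpecStalk (genericPoint A) =
      A.fromSpecStalk (genericPoint A) ≫ L.schemeNsmul n) :
    Module.Finite φ.fieldRange A.functionField ∧
      Algebra.IsSeparable φ.fieldRange A.functionField ∧
      Module.finrank φ.fieldRange A.functionField = torsionCount L n := by
  have := isFinite_schemeNsmul L g hc hA hn
  have := etale_schemeNsmul L g hc hn
  set ψ := L.schemeNsmul n with hψ
  have hsurj : Surjective ψ := by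
    rw [← Scheme.Hom.one_le_finrank_iff_surjective]
    intro a
    rw [← torsionCount_eq_finrank L g hc hA hn a]
    exact torsionCount_pos L g hc hA hn
  obtain ⟨_, ⟨U, hU, rfl⟩, hηU, -⟩ := A.isBasis_affineOpens.exists_subset_of_mem_open
    (Set.mem_univ (genericPoint A)) isOpen_univ
  change IsAffineOpen U at hU
  have : Nonempty U := ⟨⟨_, hηU⟩⟩
  set V := ψ ⁻¹ᵁ U with hV
  have hVa : IsAffineOpen V := hU.preimage ψ
  obtain ⟨y, hy⟩ := hsurj.surj (genericPoint A)
  have : Nonempty V := ⟨⟨y, by show ψ y ∈ U; rw [hy]; exact hηU⟩⟩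
  have hηV : genericPoint A ∈ V :=
    ((genericPoint_spec A).mem_open_set_iff V.isOpen).mpr (by
      rw [Set.univ_inter]; exact ⟨y, by show ψ y ∈ U; rw [hy]; exact hηU⟩)
  let : Algebra Γ(A, U) Γ(A, V) := (ψ.appLE U V le_rfl).hom.toAlgebra
  let := φ.toAlgebra
  let : Algebra Γ(A, U) A.functionField :=
    ((A.presheaf.germ V (genericPoint A) hηV).hom.comp (ψ.appLE U V le_rfl).hom).toAlgebra
  let aU : Algebra Γ(A, U) A.functionField := (A.presheaf.germ U (genericPoint A) hηU).hom.toAlgebra
  have hcompat : φ.comp (A.presheaf.germ U (genericPoint A) hηU).hom =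
      (A.presheaf.germ V (genericPoint A) hηV).hom.comp (ψ.appLE U V le_rfl).hom := by
    have h := hφ
    rw [← hU.fromSpecStalk_eq_fromSpecStalk hηU] at h
    conv_rhs at h =>
      rw [hU.fromSpecStalk_eq_fromSpecStalk hηU, ← hVa.fromSpecStalk_eq_fromSpecStalk hηV]
    unfold IsAffineOpen.fromSpecStalk at h
    rw [Category.assoc, ← Spec.map_comp_assoc, ← hU.SpecMap_appLE_fromSpec ψ hVa le_rfl,
      ← Spec.map_comp_assoc, cancel_mono, Spec.map_inj] at h
    exact congrArg CommRingCat.Hom.hom h
  have hfinite : (ψ.appLE U V le_rfl).hom.Finite := by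
    rw [← Scheme.Hom.app_eq_appLE]
    exact ψ.finite_app U hU
  have : Module.Finite Γ(A, U) Γ(A, V) := hfinite
  have : Algebra.Etale Γ(A, U) Γ(A, V) := ψ.etale_appLE hU hVa le_rfl
  have : IsFractionRing Γ(A, U) A.functionField :=
    functionField_isFractionRing_of_isAffineOpen A U hU
  have : IsFractionRing Γ(A, V) A.functionField :=
    functionField_isFractionRing_of_isAffineOpen A V hVa
  have key := @fractionField_degree Γ(A, U) Γ(A, V) A.functionField A.functionField _ _ _ _ _ _ _
    _ aU inferInstance _ _ inferInstance φ.toAlgebra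
    (((A.presheaf.germ V (genericPoint A) hηV).hom.comp (ψ.appLE U V le_rfl).hom).toAlgebra)
    (@IsScalarTower.of_algebraMap_eq Γ(A, U) Γ(A, V) A.functionField _ _ _ _ _
      (((A.presheaf.germ V (genericPoint A) hηV).hom.comp (ψ.appLE U V le_rfl).hom).toAlgebra)
      fun _ => rfl)
    (@IsScalarTower.of_algebraMap_eq Γ(A, U) A.functionField A.functionField _ _ _ aU φ.toAlgebra
      (((A.presheaf.germ V (genericPoint A) hηV).hom.comp (ψ.appLE U V le_rfl).hom).toAlgebra)
      fun r => (RingHom.congr_fun hcompat r).symm)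
    ⟨⊥, Ideal.isPrime_bot⟩ rfl
  let e : A.functionField ≃+* φ.fieldRange := RingEquiv.ofBijective φ.rangeRestrictField
    φ.rangeRestrictField_bijective
  have he : (algebraMap φ.fieldRange A.functionField).comp e.toRingHom =
      (RingEquiv.refl A.functionField).toRingHom.comp φ := RingHom.ext fun _ => rfl
  refine ⟨@Module.Finite.of_equiv_equiv _ _ _ _ _ _ _ _ φ.toAlgebra _ e (RingEquiv.refl _) he key.1,
    @Algebra.IsSeparable.of_equiv_equiv _ _ _ _ _ _ _ _ φ.toAlgebra _ e
      (RingEquiv.refl _) he key.2.1,
    (@Algebra.finrank_eq_of_equiv_equiv _ _ _ _ φ.toAlgebra _ _ _ _ _ e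
      (RingEquiv.refl _) he).symm.trans
      (key.2.2.trans ?_)⟩
  -- the rank at the generic point of `U`
  have hpb : IsPullback (ψ ∣_ U) (Scheme.Opens.ι V) (Scheme.Opens.ι U) ψ :=
    isPullback_morphismRestrict ψ U
  have hiU : hU.isoSpec.hom ≫ hU.fromSpec = Scheme.Opens.ι U := hU.isoSpec_hom_fromSpec
  have hiV : hVa.isoSpec.hom ≫ hVa.fromSpec = Scheme.Opens.ι V := hVa.isoSpec_hom_fromSpec
  have hsq : (ψ ∣_ U) ≫ hU.isoSpec.hom = hVa.isoSpec.hom ≫ Spec.map (ψ.appLE U V le_rfl) := by
    rw [← cancel_mono hU.fromSpec, Category.assoc, hiU, Category.assoc,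
      hU.SpecMap_appLE_fromSpec ψ hVa le_rfl, ← Category.assoc, hiV]
    exact hpb.w
  have hpb' : IsPullback hVa.fromSpec (Spec.map (ψ.appLE U V le_rfl)) ψ hU.fromSpec :=
    IsPullback.of_iso hpb.flip hVa.isoSpec (Iso.refl _) hU.isoSpec (Iso.refl _)
      (by rw [hiV, Iso.refl_hom, Category.comp_id]) hsq
      (by rw [Iso.refl_hom, Category.comp_id, Category.id_comp])
      (by rw [hiU, Iso.refl_hom, Category.comp_id])
  rw [torsionCount_eq_finrank L g hc hA hn (hU.fromSpec (⟨⊥, Ideal.isPrime_bot⟩ : PrimeSpectrum _)),
    ← Scheme.Hom.finrank_SpecMap_algebraMap]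
  exact Scheme.Hom.finrank_of_isPullback _ _ ψ hU.fromSpec hpb' _

include g in
/-- Multiplication by `n` induces an endomorphism of the function field. -/
theorem exists_functionField_hom (hc : L.IsCommutative) (hA : AbelianSchemePropertyBundle K f)
    {n : ℕ} (hn : (n : K) ≠ 0) : ∃ φ : A.functionField →+* A.functionField,
    Spec.map (CommRingCat.ofHom φ) ≫ A.fromSpecStalk (genericPoint A) =
      A.fromSpecStalk (genericPoint A) ≫ L.schemeNsmul n := by
  have := isFinite_schemeNsmul L g hc hA hn
  have := etale_schemeNsmul L g hc hn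
  have : Surjective (L.schemeNsmul n) := by
    rw [← Scheme.Hom.one_le_finrank_iff_surjective]
    intro a
    rw [← torsionCount_eq_finrank L g hc hA hn a]
    exact torsionCount_pos L g hc hA hn
  have himg : L.schemeNsmul n (genericPoint A) = genericPoint A := by
    refine ((genericPoint_spec A).eq ?_).symm
    have h := (genericPoint_spec A).image (L.schemeNsmul n).continuous
    rwa [Set.image_univ, (L.schemeNsmul n).surjective.range_eq, closure_univ] at h
  refine ⟨(A.presheaf.stalkSpecializes
    (specializes_of_eq himg : L.schemeNsmul n (genericPoint A) ⤳ genericPoint A) ≫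
    (L.schemeNsmul n).stalkMap (genericPoint A)).hom, ?_⟩
  rw [CommRingCat.ofHom_hom, Spec.map_comp, Category.assoc,
    Scheme.SpecMap_stalkSpecializes_fromSpecStalk, Scheme.SpecMap_stalkMap_fromSpecStalk]

end FermatAgent.AV
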