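import Mathlib
import Fermat.Agent.AV.Count.Degree

/-!
# Multiplication on the function field as a homomorphism over the constants
-/

set_option autoImplicit false

noncomputable section

universe u

open CategoryTheory CategoryTheory.Limits AlgebraicGeometry NeronModelInfra GoodReductionJacobian

namespace FermatAgent.AV

variable {K : Type u} [Field K] [IsAlgClosed K] {A : Scheme.{u}}
  {f : A ⟶ Spec (CommRingCat.of K)} (L : RelativeGroupLaw K f) (g : ℕ)
  [SmoothOfRelativeDimension g f] [IsIntegral A]

include g in
/-- The scheme form of the existence of multiplication on the function field: its value at the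
generic point is `n` times the generic point, it is finite separable, and its degree is the number
of `n`-torsion points. -/
theorem exists_mulAlgHom (hc : L.IsCommutative) (hA : AbelianSchemePropertyBundle K f)
    [Algebra K A.functionField]
    (hf : A.fromSpecStalk (genericPoint A) ≫ f =
      Spec.map (CommRingCat.ofHom (algebraMap K A.functionField)))
    {n : ℕ} (hn : (n : K) ≠ 0) :
    ∃ φ : A.functionField →ₐ[K] A.functionField,
      Spec.map (CommRingCat.ofHom φ.toRingHom) ≫ A.fromSpecStalk (genericPoint A) =
        (L.nsmul (Spec.map (CommRingCat.ofHom (algebraMap K A.functionField))) n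
          ⟨A.fromSpecStalk (genericPoint A), hf⟩).1 ∧
      FiniteDimensional φ.fieldRange A.functionField ∧
      Algebra.IsSeparable φ.fieldRange A.functionField ∧
      torsionCount L n = Module.finrank φ.fieldRange A.functionField := by
  obtain ⟨φ, hφ⟩ := exists_functionField_hom L g hc hA hn
  have hK : ∀ a : K, φ (algebraMap K A.functionField a) = algebraMap K A.functionField a := by
    have h := congrArg (· ≫ f) hφ
    simp only [Category.assoc, hf, RelativeGroupLaw.schemeNsmul_over] at h
    rw [← Spec.map_comp, Spec.map_inj] at h
    exact fun a => ConcreteCategory.congr_hom h a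
  let φ' : A.functionField →ₐ[K] A.functionField := { φ with commutes' := hK }
  have hrange : ∀ x, x ∈ φ'.fieldRange ↔ x ∈ φ.fieldRange := fun x => Iff.rfl
  let e : φ.fieldRange ≃+* φ'.fieldRange :=
    { toFun := fun x => ⟨x.1, (hrange _).mpr x.2⟩
      invFun := fun x => ⟨x.1, (hrange _).mp x.2⟩
      left_inv := fun _ => rfl
      right_inv := fun _ => rfl
      map_mul' := fun _ _ => rfl
      map_add' := fun _ _ => rfl }
  have he : (algebraMap φ'.fieldRange A.functionField).comp e.toRingHom =
      (RingEquiv.refl A.functionField).toRingHom.comp (algebraMap φ.fieldRange A.functionField) :=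
    rfl
  obtain ⟨hfin, hsep, hrank⟩ := functionField_degree L g hc hA hn φ hφ
  have := hfin; have := hsep
  refine ⟨φ', ?_, Module.Finite.of_equiv_equiv e (RingEquiv.refl _) he,
    Algebra.IsSeparable.of_equiv_equiv e (RingEquiv.refl _) he, ?_⟩
  · rw [← comp_schemeNsmul]
    exact hφ
  · rw [← hrank]
    exact Algebra.finrank_eq_of_equiv_equiv e (RingEquiv.refl _) he

end FermatAgent.AV
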