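import Mathlib
import Fermat.Agent.AV.Count.MulHom
import Fermat.Agent.AV.Geo.Points

/-!
# The field `exists_mulHom` of the model of an abelian variety
-/

set_option autoImplicit false

noncomputable section

universe u

open CategoryTheory CategoryTheory.Limits AlgebraicGeometry NeronModelInfra GoodReductionJacobian

namespace FermatAgent.AV.Geo

variable {K : Type u} [Field K] [IsAlgClosed K] {A : Scheme.{u}}
  {f : A ⟶ Spec (CommRingCat.of K)} [IsProper f] (L : RelativeGroupLaw K f) (g : ℕ)
  [SmoothOfRelativeDimension g f] [IsIntegral A] [Algebra K A.functionField]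

include g in
/-- Multiplication by an invertible integer is finite separable on the function field, of degree
the number of torsion points, in the language of points with values in fields. -/
theorem exists_mulHom (hc : L.IsCommutative) (hA : AbelianSchemePropertyBundle K f)
    (hgen : A.fromSpecStalk (genericPoint A) ≫ f = specK K A.functionField)
    (n : ℕ) (hn : (n : K) ≠ 0) :
    letI := addCommGroup L hc A.functionField
    letI := addCommGroup L hc K
    ∃ φ : A.functionField →ₐ[K] A.functionField,
      map L hc (Spot.ofHom φ) (⟨A.fromSpecStalk (genericPoint A), hgen⟩ : Pts f A.functionField) =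
          n • (⟨A.fromSpecStalk (genericPoint A), hgen⟩ : Pts f A.functionField) ∧
        FiniteDimensional φ.fieldRange A.functionField ∧
        Algebra.IsSeparable φ.fieldRange A.functionField ∧
        Nat.card {x : Pts f K // n • x = 0} = Module.finrank φ.fieldRange A.functionField := by
  obtain ⟨φ, hφ, hfin, hsep, hcard⟩ := exists_mulAlgHom L g hc hA hgen hn
  refine ⟨φ, Subtype.ext ?_, hfin, hsep, ?_⟩
  · exact (coe_mapPt_ofHom φ _).trans hφ
  · rw [← hcard, ← natCard_torsion_eq L hc n]
    rfl

end FermatAgent.AV.Geo
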